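import Fermat.Agent.H4.ESB.GaloisDataLaurent
import Fermat.Agent.H33.ESB.LaurentConstExt

/-!
# P-ES / ES-B, row ESB-11: `LaurentInstanceStatement`, unconditionally
-/

set_option autoImplicit false

namespace Fermat.Agent.H4.ESB

open Fermat.Agent.H29

/-- **ESB-11** The Laurent base change `ℚ̄(X₀(N)) → ℂ(X₀(N))` is a constant field extension with
Galois data acting through the prelude's `arithmeticGalois`. -/
theorem laurentInstanceStatement (N : ℕ) [NeZero N] : LaurentInstanceStatement N :=
  laurentInstanceStatement_of N fun ι => Fermat.Agent.H33.ESB.laurentConstExt_spec N ι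

end Fermat.Agent.H4.ESB
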