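import Fermat.Agent.H4.ESB.LaurentGalois

/-!
# P-ES / ES-B, row ESB-11b: `GaloisData` for the Laurent base change, `LaurentInstanceStatement`
-/

set_option autoImplicit false

namespace Fermat.Agent.H4.ESB

open ModularCurve HahnSeries AlgebraicCurve Fermat.Agent.H29

section

variable {k K : Type} [Field k] [Field K] [Algebra ℚ k] [Algebra ℚ K]
variable [IsAlgClosed k] [IsAlgClosed K] [CharZero K]
variable (F₀ : IntermediateField ℚ (LaurentSeries ℚ))

/-- Every `k`-algebra automorphism of `K` is a `ℚ`-algebra automorphism. -/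
def toRatAut [Algebra k K] : (K ≃ₐ[k] K) →* (K ≃ₐ[ℚ] K) where
  toFun g := g.toRingEquiv.toRatAlgEquiv
  map_one' := rfl
  map_mul' _ _ := rfl

omit [IsAlgClosed k] [IsAlgClosed K] [CharZero K] [Algebra ℚ k] in
@[simp] lemma toRatAut_apply [Algebra k K] (g : K ≃ₐ[k] K) (c : K) : toRatAut g c = g c := rfl

omit [IsAlgClosed K] [CharZero K] [Algebra ℚ k] [Algebra ℚ K] in
/-- Over an algebraically closed field, an element outside the base field is transcendental. -/
lemma transcendental_of_not_mem_range [Algebra k K] {c : K}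
    (hc : c ∉ Set.range (algebraMap k K)) : Transcendental k c := by
  intro halg
  apply hc
  have hint : IsIntegral k c := halg.isIntegral
  have hdeg : (minpoly k c).degree = 1 :=
    IsAlgClosed.degree_eq_one_of_irreducible k (minpoly.irreducible hint)
  exact minpoly.mem_range_of_degree_eq_one k c hdeg

/-- **ESB-11b**: Galois data for a coefficientwise constant field extension of Laurent base
changes. -/
theorem exists_galoisData
    (E : ConstExt k K ↥(laurentBaseChange k F₀) ↥(laurentBaseChange K F₀))
    (hbc : ∀ f : ↥(laurentBaseChange k F₀),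
      ((E.bc f : ↥(laurentBaseChange K F₀)) : LaurentSeries K)
        = coeffMap E.ι (f : LaurentSeries k)) :
    ∃ Gd : GaloisData E, ∀ g : Gd.G, ∃ σ : K ≃ₐ[ℚ] K, Gd.ρ g = arithmeticGalois F₀ σ := by
  letI : Algebra k K := E.ι.toAlgebra
  have hι : ∀ a : k, algebraMap k K a = E.ι a := fun a => rfl
  refine ⟨{
    G := K ≃ₐ[k] K
    group := inferInstance
    ρ := (arithmeticGalois F₀).comp toRatAut
    fix_bc := ?_
    fixed := ?_
    orbit := ?_
    lead := fun h => (h : LaurentSeries K).leadingCoeff
    lead_ne := ?_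
    lead_smul := ?_
    lead_galois := ?_ }, fun g => ⟨toRatAut g, rfl⟩⟩
  · -- fix_bc
    intro g f
    apply Subtype.ext
    show coeffMap ((toRatAut g : K ≃ₐ[ℚ] K) : K →+* K)
      ((E.bc f : ↥(laurentBaseChange K F₀)) : LaurentSeries K) = _
    rw [hbc, coeffMap_coeffMap]
    refine coeffMap_congr (RingHom.ext fun a => ?_) _
    show g (E.ι a) = E.ι a
    rw [← hι, g.commutes]
  · -- fixed
    intro h hfix
    refine exists_bc_eq_of_coeff_mem_range E hbc h fun n => ?_
    have hmem := Fermat.Agent.H69.mem_range_algebraMap_of_fixed (k := k) (K := K)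
      (⊤ : Subgroup (K ≃ₐ[k] K)) (by rw [Subgroup.index_top]; exact one_ne_zero)
      (c := (h : LaurentSeries K).coeff n) (fun σ _ => by
        have h1 := congrArg (fun z : ↥(laurentBaseChange K F₀) =>
          (z : LaurentSeries K).coeff n) (hfix σ)
        exact h1)
    exact hmem
  · -- orbit
    intro c hc H hH
    have htr : Transcendental k c := transcendental_of_not_mem_range hc
    exact Fermat.Agent.H69.infinite_orbit_of_transcendental H hH.index_ne_zero htr
  · -- lead_ne
    intro h hh
    rw [HahnSeries.leadingCoeff_ne_zero]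
    exact fun h0 => hh (Subtype.ext h0)
  · -- lead_smul
    intro c h
    show ((algebraMap K (LaurentSeries K) c) * (h : LaurentSeries K)).leadingCoeff = _
    rw [HahnSeries.leadingCoeff_mul, algebraMap_laurentSeries_eq_single,
      HahnSeries.leadingCoeff_of_single]
  · -- lead_galois
    intro g h
    show (coeffMap ((toRatAut g : K ≃ₐ[ℚ] K) : K →+* K) (h : LaurentSeries K)).leadingCoeff = _
    rw [leadingCoeff_coeffMap _ (toRatAut g).injective]
    rfl

end

/-- **ESB-11** `LaurentInstanceStatement` from the constant field extension of row ESB-11a. -/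
theorem laurentInstanceStatement_of (N : ℕ) [NeZero N]
    (h11a : ∀ ι : AlgebraicClosure ℚ →+* ℂ,
      ∃ E : ConstExt (AlgebraicClosure ℚ) ℂ ↥(ModularCurve.modularFunctionFieldBar N) ↥(FC N),
        E.ι = ι ∧
        ∀ f : ↥(ModularCurve.modularFunctionFieldBar N),
          ((E.bc f : ↥(FC N)) : LaurentSeries ℂ)
            = ModularCurve.coeffMap ι (f : LaurentSeries (AlgebraicClosure ℚ))) :
    LaurentInstanceStatement N := by
  intro ι
  obtain ⟨E, hEι, hbc⟩ := h11a ι
  refine ⟨E, hEι, hbc, ?_⟩
  exact exists_galoisData (ModularCurve.modularFunctionFieldFull N) E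
    (fun f => by rw [hbc f, hEι])

end Fermat.Agent.H4.ESB
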