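import Fermat.Agent.H29.ESB.Interfaces

/-!
# P-ES / ES-B: generation with linearly independent constants

In a constant field extension `E : ConstExt k K Fk FK` every element of `FK` is a quotient of
`K`-linear combinations of elements of `bc Fk` whose coefficients are linearly independent
over `k`.
-/

set_option autoImplicit false

namespace Fermat.Agent.H4.ESB

open Fermat.Agent.H29

variable {k K Fk FK : Type} [Field k] [Field K] [Field Fk] [Field FK]
  [Algebra k Fk] [Algebra K FK] (E : ConstExt k K Fk FK)

/-- Rewriting a `K`-linear combination of elements of `bc Fk` with independent constants. -/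
theorem exists_indep_combination (n : ℕ) (e : Fin n → K) :
    ∃ (m : ℕ) (b : Fin m → K) (a : Fin n → Fin m → k),
      (∀ c : Fin m → k, ∑ j, E.ι (c j) * b j = 0 → ∀ j, c j = 0) ∧
      ∀ u : Fin n → Fk, ∑ i, algebraMap K FK (e i) * E.bc (u i) =
        ∑ j, algebraMap K FK (b j) * E.bc (∑ i, algebraMap k Fk (a i j) * u i) := by
  let _ : Algebra k K := E.ι.toAlgebra
  have hsmul : ∀ (c : k) (x : K), c • x = E.ι c * x := fun c x => rfl
  let V : Submodule k K := Submodule.span k (Set.range e)
  have : FiniteDimensional k V := FiniteDimensional.span_of_finite k (Set.finite_range e)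
  let B := Module.finBasis k V
  refine ⟨Module.finrank k V, fun j => (B j : K),
    fun i j => B.repr ⟨e i, Submodule.subset_span (Set.mem_range_self i)⟩ j, ?_, ?_⟩
  · intro c hc
    have hlin := B.linearIndependent
    rw [Fintype.linearIndependent_iff] at hlin
    apply hlin c
    apply Subtype.ext
    rw [Submodule.coe_sum, Submodule.coe_zero, ← hc]
    refine Finset.sum_congr rfl fun j _ => ?_
    rw [Submodule.coe_smul, hsmul]
  · intro u
    have he : ∀ i, e i = ∑ j, E.ι (B.repr ⟨e i, Submodule.subset_span (Set.mem_range_self i)⟩ j)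
        * (B j : K) := by
      intro i
      have h1 := B.sum_repr ⟨e i, Submodule.subset_span (Set.mem_range_self i)⟩
      have h2 : ((∑ j, B.repr ⟨e i, Submodule.subset_span (Set.mem_range_self i)⟩ j • B j : V)
          : K) = e i := congrArg (Subtype.val) h1
      rw [Submodule.coe_sum] at h2
      refine h2.symm.trans ?_
      refine Finset.sum_congr rfl fun j _ => ?_
      rw [Submodule.coe_smul, hsmul]
    calc ∑ i, algebraMap K FK (e i) * E.bc (u i)
        = ∑ i, ∑ j, algebraMap K FK (B j : K) *
            E.bc (algebraMap k Fk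
              (B.repr ⟨e i, Submodule.subset_span (Set.mem_range_self i)⟩ j) * u i) := by
          refine Finset.sum_congr rfl fun i _ => ?_
          conv_lhs => rw [he i]
          rw [map_sum, Finset.sum_mul]
          refine Finset.sum_congr rfl fun j _ => ?_
          rw [map_mul, map_mul, E.bc_algebraMap]
          ring
      _ = ∑ j, ∑ i, algebraMap K FK (B j : K) *
            E.bc (algebraMap k Fk
              (B.repr ⟨e i, Submodule.subset_span (Set.mem_range_self i)⟩ j) * u i) :=
          Finset.sum_comm
      _ = _ := by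
          refine Finset.sum_congr rfl fun j _ => ?_
          rw [map_sum, Finset.mul_sum]

/-- **Generation with independent constants.** -/
theorem exists_indep_gen (h : FK) :
    ∃ (m : ℕ) (b : Fin m → K) (u w : Fin m → Fk),
      (∀ c : Fin m → k, ∑ j, E.ι (c j) * b j = 0 → ∀ j, c j = 0) ∧
      ∑ j, algebraMap K FK (b j) * E.bc (w j) ≠ 0 ∧
      h * ∑ j, algebraMap K FK (b j) * E.bc (w j) = ∑ j, algebraMap K FK (b j) * E.bc (u j) := by
  obtain ⟨n, e, u, w, hne, heq⟩ := E.gen h
  obtain ⟨m, b, a, hind, hcomb⟩ := exists_indep_combination E n e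
  refine ⟨m, b, fun j => ∑ i, algebraMap k Fk (a i j) * u i,
    fun j => ∑ i, algebraMap k Fk (a i j) * w i, hind, ?_, ?_⟩
  · rw [← hcomb w]; exact hne
  · rw [← hcomb w, ← hcomb u]; exact heq

end Fermat.Agent.H4.ESB
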