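import Mathlib
import Fermat.Prelude.Def_ModularCurve_LaurentCoeff

/-!
# P-ES / ES-B, row ESB-11b: leading coefficients of Laurent series and coefficient maps
-/

set_option autoImplicit false

namespace Fermat.Agent.H4.ESB

open ModularCurve HahnSeries

variable {R S : Type*} [CommRing R] [CommRing S]

lemma support_coeffMap (f : R →+* S) (hf : Function.Injective f) (x : LaurentSeries R) :
    (coeffMap f x).support = x.support := by
  ext n
  rw [HahnSeries.mem_support, HahnSeries.mem_support, coeffMap_coeff, Ne, Ne,
    map_eq_zero_iff f hf]

lemma coeffMap_injective (f : R →+* S) (hf : Function.Injective f) :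
    Function.Injective (coeffMap f) := by
  intro x y hxy
  ext n
  apply hf
  have := congrArg (fun z => z.coeff n) hxy
  simpa using this

lemma coeffMap_eq_zero_iff (f : R →+* S) (hf : Function.Injective f) (x : LaurentSeries R) :
    coeffMap f x = 0 ↔ x = 0 := by
  rw [← (coeffMap_injective f hf).eq_iff, map_zero]

lemma orderTop_coeffMap (f : R →+* S) (hf : Function.Injective f) (x : LaurentSeries R) :
    (coeffMap f x).orderTop = x.orderTop := by
  by_cases hx : x = 0
  · rw [hx, map_zero, HahnSeries.orderTop_zero, HahnSeries.orderTop_zero]
  · have hmem : x.order ∈ x.support := by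
      rw [HahnSeries.mem_support]
      exact fun h => hx (HahnSeries.coeff_order_eq_zero.mp h)
    have hle : ∀ g' ∈ x.support, x.order ≤ g' := fun g' hg' =>
      HahnSeries.order_le_of_coeff_ne_zero ((HahnSeries.mem_support _ _).mp hg')
    rw [HahnSeries.orderTop_eq_of_le hmem hle]
    apply HahnSeries.orderTop_eq_of_le
    · rw [support_coeffMap f hf]; exact hmem
    · rw [support_coeffMap f hf]; exact hle

lemma leadingCoeff_coeffMap (f : R →+* S) (hf : Function.Injective f) (x : LaurentSeries R) :
    (coeffMap f x).leadingCoeff = f x.leadingCoeff := by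
  unfold HahnSeries.leadingCoeff
  rw [orderTop_coeffMap f hf]
  cases x.orderTop with
  | top => simp
  | coe n => simp

end Fermat.Agent.H4.ESB
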