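import Fermat.Agent.H4.ESB.IndepGen
import Fermat.Agent.H4.ESB.Lead
import Fermat.Agent.H69.AutTranscendental

/-!
# P-ES / ES-B, row ESB-11b: Galois data for the Laurent base change

For a constant field extension `E` of Laurent base changes `laurentBaseChange k F₀ →
laurentBaseChange K F₀` (`k ⊂ K` algebraically closed of characteristic zero) whose `bc` is the
coefficientwise map, the group `Aut(K/k)` acting coefficientwise gives `GaloisData E`.
-/

set_option autoImplicit false

namespace Fermat.Agent.H4.ESB

open ModularCurve HahnSeries AlgebraicCurve Fermat.Agent.H29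

section descent

variable {k K : Type} [Field k] [Field K] [Algebra ℚ k] [Algebra ℚ K]
variable {F₀ : IntermediateField ℚ (LaurentSeries ℚ)}
variable (E : ConstExt k K ↥(laurentBaseChange k F₀) ↥(laurentBaseChange K F₀))

omit [Algebra ℚ k] [Algebra ℚ K] in
lemma coe_algebraMap_mul (c : K) (x : LaurentSeries K) (n : ℤ) :
    (algebraMap K (LaurentSeries K) c * x).coeff n = c * x.coeff n := by
  rw [algebraMap_laurentSeries_eq_single]
  exact HahnSeries.coeff_single_zero_mul

/-- **Descent of the field of definition**: a Laurent series over `k` whose image over `K`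
lies in the base-changed field lies in the field over `k`. -/
theorem mem_of_coeffMap_mem
    (hbc : ∀ f : ↥(laurentBaseChange k F₀),
      ((E.bc f : ↥(laurentBaseChange K F₀)) : LaurentSeries K)
        = coeffMap E.ι (f : LaurentSeries k))
    (h0 : LaurentSeries k) (hh : coeffMap E.ι h0 ∈ laurentBaseChange K F₀) :
    h0 ∈ laurentBaseChange k F₀ := by
  obtain ⟨m, b, u, w, hind, hne, heq⟩ :=
    exists_indep_gen E (⟨coeffMap E.ι h0, hh⟩ : ↥(laurentBaseChange K F₀))
  -- the relation in Laurent series
  have hcoe : ∀ v : Fin m → ↥(laurentBaseChange k F₀),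
      ((∑ j, algebraMap K ↥(laurentBaseChange K F₀) (b j) * E.bc (v j) :
        ↥(laurentBaseChange K F₀)) : LaurentSeries K) =
      ∑ j, algebraMap K (LaurentSeries K) (b j) * coeffMap E.ι (v j : LaurentSeries k) := by
    intro v
    rw [IntermediateField.coe_sum]
    refine Finset.sum_congr rfl fun j _ => ?_
    rw [IntermediateField.coe_mul, hbc]
    rfl
  have heq' : coeffMap E.ι h0 *
      ∑ j, algebraMap K (LaurentSeries K) (b j) * coeffMap E.ι (w j : LaurentSeries k) =
      ∑ j, algebraMap K (LaurentSeries K) (b j) * coeffMap E.ι (u j : LaurentSeries k) := by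
    have := congrArg (fun z : ↥(laurentBaseChange K F₀) => (z : LaurentSeries K)) heq
    simp only [IntermediateField.coe_mul] at this
    rw [hcoe w, hcoe u] at this
    exact this
  have hrel : ∑ j, algebraMap K (LaurentSeries K) (b j) *
      coeffMap E.ι (h0 * (w j : LaurentSeries k) - (u j : LaurentSeries k)) = 0 := by
    have : ∀ j, algebraMap K (LaurentSeries K) (b j) *
        coeffMap E.ι (h0 * (w j : LaurentSeries k) - (u j : LaurentSeries k)) =
        coeffMap E.ι h0 * (algebraMap K (LaurentSeries K) (b j) *
          coeffMap E.ι (w j : LaurentSeries k)) -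
        algebraMap K (LaurentSeries K) (b j) * coeffMap E.ι (u j : LaurentSeries k) := by
      intro j
      rw [map_sub, map_mul]
      ring
    rw [Finset.sum_congr rfl fun j _ => this j, Finset.sum_sub_distrib, ← Finset.mul_sum, heq',
      sub_self]
  have hzero : ∀ j, h0 * (w j : LaurentSeries k) = (u j : LaurentSeries k) := by
    intro j
    rw [← sub_eq_zero]
    ext n
    have hn := congrArg (fun z : LaurentSeries K => z.coeff n) hrel
    simp only [HahnSeries.coeff_sum, HahnSeries.coeff_zero] at hn
    have hn' : ∑ j, E.ι ((h0 * (w j : LaurentSeries k) - (u j : LaurentSeries k)).coeff n) * b j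
        = 0 := by
      rw [← hn]
      refine Finset.sum_congr rfl fun j _ => ?_
      rw [coe_algebraMap_mul, coeffMap_coeff, mul_comm]
    exact hind _ hn' j
  -- some `w j` is nonzero
  have hw : ∃ j, w j ≠ 0 := by
    by_contra hcon
    push Not at hcon
    apply hne
    refine Finset.sum_eq_zero fun j _ => ?_
    rw [hcon j, map_zero, mul_zero]
  obtain ⟨j, hj⟩ := hw
  have hj' : (w j : LaurentSeries k) ≠ 0 := fun h => hj (Subtype.ext h)
  have : h0 = (u j : LaurentSeries k) * (w j : LaurentSeries k)⁻¹ := by
    rw [← hzero j, mul_assoc, mul_inv_cancel₀ hj', mul_one]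
  rw [this]
  exact mul_mem (u j).2 (inv_mem (w j).2)

/-- **Fixed elements**: an element of the base-changed field all of whose coefficients lie in
the image of `k` comes from the field over `k`. -/
theorem exists_bc_eq_of_coeff_mem_range
    (hbc : ∀ f : ↥(laurentBaseChange k F₀),
      ((E.bc f : ↥(laurentBaseChange K F₀)) : LaurentSeries K)
        = coeffMap E.ι (f : LaurentSeries k))
    (h : ↥(laurentBaseChange K F₀))
    (hcoeff : ∀ n : ℤ, (h : LaurentSeries K).coeff n ∈ Set.range E.ι) :
    h ∈ Set.range E.bc := by
  classical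
  choose c hc using hcoeff
  have hsupp : Function.support c ⊆ (h : LaurentSeries K).support := by
    intro n hn
    rw [HahnSeries.mem_support, ← hc n]
    exact fun h0 => hn ((map_eq_zero_iff E.ι E.ι.injective).mp h0)
  let h0 : LaurentSeries k := ⟨c, (h : LaurentSeries K).isPWO_support.mono hsupp⟩
  have hh0 : coeffMap E.ι h0 = (h : LaurentSeries K) := by
    ext n
    rw [coeffMap_coeff]
    exact hc n
  have hmem : h0 ∈ laurentBaseChange k F₀ :=
    mem_of_coeffMap_mem E hbc h0 (by rw [hh0]; exact h.2)
  refine ⟨⟨h0, hmem⟩, ?_⟩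
  apply Subtype.ext
  rw [hbc]
  exact hh0

end descent

end Fermat.Agent.H4.ESB
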